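import Mathlib.Algebra.Algebra.Basic
import Mathlib.LinearAlgebra.Span.Defs
import Mathlib.LinearAlgebra.Prod
import Mathlib.Tactic.Ring
import Mathlib.Tactic.LinearCombination
import Mathlib.Tactic.NoncommRing
import Mathlib.Tactic.Module

/-!
# Quadratic pairs

Let `ρ : G →* E` be a representation in a `K`-algebra `E`, `ω : G →* K` a character and
`t : G → K` such that `ρ g * ρ g - t g • ρ g + ω g • 1 = 0` for all `g`.
We study the `K`-span of the pairs `(ρ g, ω g • ρ g⁻¹)` in `E × E`: for `(a, a')` in this span,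
`a + a'` and `a * a'` are scalars, and `a * b' + b * a'` is a scalar for two such pairs.
Consequently every element of the span of `ρ(G)` satisfies a monic quadratic over `K`.
-/

set_option autoImplicit false

namespace Fermat.Agent.QuadRep

variable {K : Type*} [CommRing K] {E : Type*} [Ring E] [Algebra K E] {G : Type*} [Group G]

/-- The quadratic relation `ρ(g)² - t(g) ρ(g) + ω(g) = 0`. -/
def IsQuad (ρ : G →* E) (ω : G →* K) (t : G → K) : Prop :=
  ∀ g, ρ g * ρ g - t g • ρ g + ω g • (1 : E) = 0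

/-- The span of the pairs `(ρ g, ω g • ρ g⁻¹)`. -/
def pairSpan (ρ : G →* E) (ω : G →* K) : Submodule K (E × E) :=
  Submodule.span K (Set.range fun g => (ρ g, ω g • ρ g⁻¹))

variable {ρ : G →* E} {ω : G →* K} {t : G → K}

lemma rho_mul_inv (ρ : G →* E) (g : G) : ρ g * ρ g⁻¹ = 1 := by
  rw [← map_mul, mul_inv_cancel, map_one]

lemma rho_inv_mul (ρ : G →* E) (g : G) : ρ g⁻¹ * ρ g = 1 := by
  rw [← map_mul, inv_mul_cancel, map_one]

lemma IsQuad.add_inv (h : IsQuad ρ ω t) (g : G) :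
    ρ g + ω g • ρ g⁻¹ = t g • (1 : E) := by
  have h1 := h g
  have h2 : (ρ g * ρ g - t g • ρ g + ω g • (1 : E)) * ρ g⁻¹ = 0 := by rw [h1, zero_mul]
  rw [add_mul, sub_mul, mul_assoc, rho_mul_inv, mul_one, smul_mul_assoc, rho_mul_inv,
    smul_mul_assoc, one_mul] at h2
  have h3 : ρ g + ω g • ρ g⁻¹ - t g • (1 : E) = 0 := by
    rw [← h2]; abel
  exact sub_eq_zero.mp h3

lemma gen_mem_pairSpan (ρ : G →* E) (ω : G →* K) (g : G) :
    (ρ g, ω g • ρ g⁻¹) ∈ pairSpan ρ ω :=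
  Submodule.subset_span ⟨g, rfl⟩

/-- `(i)`: `a + a'` is a scalar. -/
lemma pairSpan_add (h : IsQuad ρ ω t) {x : E × E} (hx : x ∈ pairSpan ρ ω) :
    ∃ τ : K, x.1 + x.2 = τ • (1 : E) := by
  induction hx using Submodule.span_induction with
  | mem x hx =>
    obtain ⟨g, rfl⟩ := hx
    exact ⟨t g, h.add_inv g⟩
  | zero => exact ⟨0, by simp⟩
  | add x y _ _ hx hy =>
    obtain ⟨a, ha⟩ := hx
    obtain ⟨b, hb⟩ := hy
    refine ⟨a + b, ?_⟩
    rw [Prod.fst_add, Prod.snd_add, add_smul, ← ha, ← hb]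
    abel
  | smul c x _ hx =>
    obtain ⟨a, ha⟩ := hx
    refine ⟨c * a, ?_⟩
    rw [Prod.smul_fst, Prod.smul_snd, ← smul_add, ha, smul_smul]

lemma omega_mul_inv (ω : G →* K) (g : G) : ω g * ω g⁻¹ = 1 := by
  rw [← map_mul, mul_inv_cancel, map_one]

/-- `(ii)` on generators. -/
lemma pairSpan_cross_gen (h : IsQuad ρ ω t) (g k : G) :
    ρ g * (ω k • ρ k⁻¹) + ρ k * (ω g • ρ g⁻¹) = (ω k * t (g * k⁻¹)) • (1 : E) := by
  have h1 := h.add_inv (g * k⁻¹)
  have e1 : ρ g * (ω k • ρ k⁻¹) = ω k • ρ (g * k⁻¹) := by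
    rw [mul_smul_comm, ← map_mul]
  have e2 : ρ k * (ω g • ρ g⁻¹) = ω k • (ω (g * k⁻¹) • ρ (g * k⁻¹)⁻¹) := by
    have e3 : ω k * ω (g * k⁻¹) = ω g := by
      rw [map_mul, mul_comm (ω g), ← mul_assoc, omega_mul_inv, one_mul]
    rw [mul_smul_comm, ← map_mul, smul_smul, e3, mul_inv_rev, inv_inv]
  rw [e1, e2, ← smul_add, h1, smul_smul]

/-- `(ii)`: `a * b' + b * a'` is a scalar. -/
lemma pairSpan_cross (h : IsQuad ρ ω t) {x y : E × E} (hx : x ∈ pairSpan ρ ω)
    (hy : y ∈ pairSpan ρ ω) : ∃ c : K, x.1 * y.2 + y.1 * x.2 = c • (1 : E) := by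
  induction hx using Submodule.span_induction with
  | mem x hx =>
    obtain ⟨g, rfl⟩ := hx
    induction hy using Submodule.span_induction with
    | mem y hy =>
      obtain ⟨k, rfl⟩ := hy
      exact ⟨_, pairSpan_cross_gen h g k⟩
    | zero => exact ⟨0, by simp⟩
    | add y z _ _ hy hz =>
      obtain ⟨a, ha⟩ := hy
      obtain ⟨b, hb⟩ := hz
      refine ⟨a + b, ?_⟩
      rw [add_smul, ← ha, ← hb, Prod.fst_add, Prod.snd_add, mul_add, add_mul]
      abel
    | smul c y _ hy =>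
      obtain ⟨a, ha⟩ := hy
      refine ⟨c * a, ?_⟩
      rw [Prod.smul_fst, Prod.smul_snd, mul_smul_comm, smul_mul_assoc, ← smul_add, ha, smul_smul]
  | zero => exact ⟨0, by simp⟩
  | add x z _ _ hx hz =>
    obtain ⟨a, ha⟩ := hx
    obtain ⟨b, hb⟩ := hz
    refine ⟨a + b, ?_⟩
    rw [add_smul, ← ha, ← hb, Prod.fst_add, Prod.snd_add, mul_add, add_mul]
    abel
  | smul c x _ hx =>
    obtain ⟨a, ha⟩ := hx
    refine ⟨c * a, ?_⟩
    rw [Prod.smul_fst, Prod.smul_snd, mul_smul_comm, smul_mul_assoc, ← smul_add, ha, smul_smul]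

/-- `(iii)`: `a * a'` is a scalar. -/
lemma pairSpan_mul (h : IsQuad ρ ω t) {x : E × E} (hx : x ∈ pairSpan ρ ω) :
    ∃ ν : K, x.1 * x.2 = ν • (1 : E) := by
  induction hx using Submodule.span_induction with
  | mem x hx =>
    obtain ⟨g, rfl⟩ := hx
    exact ⟨ω g, by rw [mul_smul_comm, rho_mul_inv]⟩
  | zero => exact ⟨0, by simp⟩
  | add x y hx' hy' hx hy =>
    obtain ⟨a, ha⟩ := hx
    obtain ⟨b, hb⟩ := hy
    obtain ⟨c, hc⟩ := pairSpan_cross h hx' hy'
    refine ⟨a + b + c, ?_⟩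
    rw [add_smul, add_smul, ← ha, ← hb, ← hc, Prod.fst_add, Prod.snd_add, mul_add, add_mul,
      add_mul]
    abel
  | smul c x _ hx =>
    obtain ⟨a, ha⟩ := hx
    refine ⟨c * c * a, ?_⟩
    rw [Prod.smul_fst, Prod.smul_snd, mul_smul_comm, smul_mul_assoc, ha, smul_smul, smul_smul]

/-- Every element of the span of `ρ(G)` is the first component of an element of `pairSpan`. -/
lemma exists_pair_of_mem_span (ρ : G →* E) (ω : G →* K) {a : E}
    (ha : a ∈ Submodule.span K (Set.range ρ)) : ∃ a' : E, (a, a') ∈ pairSpan ρ ω := by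
  induction ha using Submodule.span_induction with
  | mem x hx =>
    obtain ⟨g, rfl⟩ := hx
    exact ⟨_, gen_mem_pairSpan ρ ω g⟩
  | zero => exact ⟨0, (pairSpan ρ ω).zero_mem⟩
  | add x y _ _ hx hy =>
    obtain ⟨x', hx'⟩ := hx
    obtain ⟨y', hy'⟩ := hy
    exact ⟨x' + y', (pairSpan ρ ω).add_mem hx' hy'⟩
  | smul c x _ hx =>
    obtain ⟨x', hx'⟩ := hx
    exact ⟨c • x', (pairSpan ρ ω).smul_mem c hx'⟩

/-- The first component of an element of `pairSpan` lies in the span of `ρ(G)`. -/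
lemma fst_mem_span_of_mem_pairSpan {x : E × E} (hx : x ∈ pairSpan ρ ω) :
    x.1 ∈ Submodule.span K (Set.range ρ) := by
  induction hx using Submodule.span_induction with
  | mem x hx =>
    obtain ⟨g, rfl⟩ := hx
    exact Submodule.subset_span ⟨g, rfl⟩
  | zero => exact Submodule.zero_mem _
  | add x y _ _ hx hy => exact Submodule.add_mem _ hx hy
  | smul c x _ hx => exact Submodule.smul_mem _ c hx

/-- Every element of the span of `ρ(G)` satisfies a monic quadratic equation over `K`;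
more precisely it has a "conjugate" `a' = τ - a` with `a * a' = a' * a = ν`. -/
lemma exists_quadratic (h : IsQuad ρ ω t) {a : E}
    (ha : a ∈ Submodule.span K (Set.range ρ)) :
    ∃ τ ν : K, a * (τ • (1 : E) - a) = ν • (1 : E) ∧ (τ • (1 : E) - a) * a = ν • (1 : E) := by
  obtain ⟨a', ha'⟩ := exists_pair_of_mem_span ρ ω ha
  obtain ⟨τ, hτ⟩ := pairSpan_add h ha'
  obtain ⟨ν, hν⟩ := pairSpan_mul h ha'
  simp only at hτ hν
  have e : τ • (1 : E) - a = a' := by rw [← hτ]; abel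
  refine ⟨τ, ν, by rw [e, hν], ?_⟩
  rw [← hν, ← e, mul_sub, sub_mul, mul_smul_comm, smul_mul_assoc, mul_one, one_mul]

end Fermat.Agent.QuadRep
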