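import Mathlib
import Fermat.Agent.Lib.QuadRep.Pairs

/-!
# The rank argument

An irreducible representation `ρ : G →* End_K V` in which every group element satisfies a monic
quadratic `X² - t(g) X + ω(g)` and in which some nonzero element of the span of `ρ(G)` is not
injective, has dimension at most `2`.
-/

set_option autoImplicit false

namespace Fermat.Agent.QuadRep

variable {K : Type*} [Field K] {V : Type*} [AddCommGroup V] [Module K V] {G : Type*} [Group G]

/-- Irreducibility of a representation given as a monoid homomorphism into `Module.End`. -/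
def IsIrred (ρ : G →* Module.End K V) : Prop :=
  ∀ U : Submodule K V, (∀ g, ∀ x ∈ U, ρ g x ∈ U) → U = ⊥ ∨ U = ⊤

variable {ρ : G →* Module.End K V} {ω : G →* K} {t : G → K}

lemma rho_mul_mem_span (ρ : G →* Module.End K V) (g : G) {b : Module.End K V}
    (hb : b ∈ Submodule.span K (Set.range ρ)) : ρ g * b ∈ Submodule.span K (Set.range ρ) := by
  induction hb using Submodule.span_induction with
  | mem x hx =>
    obtain ⟨k, rfl⟩ := hx
    exact Submodule.subset_span ⟨g * k, map_mul ρ g k⟩
  | zero => rw [mul_zero]; exact Submodule.zero_mem _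
  | add x y _ _ hx hy => rw [mul_add]; exact Submodule.add_mem _ hx hy
  | smul c x _ hx => rw [mul_smul_comm]; exact Submodule.smul_mem _ c hx

lemma one_mem_span (ρ : G →* Module.End K V) :
    (1 : Module.End K V) ∈ Submodule.span K (Set.range ρ) :=
  Submodule.subset_span ⟨1, map_one ρ⟩

/-- For an irreducible representation, every vector is of the form `b u` with `b` in the span of
`ρ(G)`, for any fixed `u ≠ 0`. -/
lemma exists_span_apply_eq (hirr : IsIrred ρ) {u : V} (hu : u ≠ 0) (w : V) :
    ∃ b ∈ Submodule.span K (Set.range ρ), b u = w := by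
  let U : Submodule K V :=
    (Submodule.span K (Set.range ρ)).map (LinearMap.applyₗ (R := K) (M₂ := V) u)
  have hinv : ∀ g, ∀ x ∈ U, ρ g x ∈ U := by
    intro g x hx
    obtain ⟨b, hb, rfl⟩ := hx
    exact ⟨ρ g * b, rho_mul_mem_span ρ g hb, rfl⟩
  have hu' : u ∈ U := ⟨1, one_mem_span ρ, rfl⟩
  rcases hirr U hinv with h | h
  · exfalso
    rw [h] at hu'
    exact hu ((Submodule.mem_bot K).mp hu')
  · have hw : w ∈ U := by rw [h]; exact Submodule.mem_top
    obtain ⟨b, hb, hbw⟩ := hw
    exact ⟨b, hb, hbw⟩

/-- **The rank argument.** -/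
theorem finrank_le_two_of_not_injective [FiniteDimensional K V] (h : IsQuad ρ ω t)
    (hirr : IsIrred ρ) {a : Module.End K V} (ha : a ∈ Submodule.span K (Set.range ρ))
    (ha0 : a ≠ 0) (hinj : ¬ Function.Injective a) : Module.finrank K V ≤ 2 := by
  obtain ⟨a', ha'⟩ := exists_pair_of_mem_span ρ ω ha
  obtain ⟨τ, hτ⟩ := pairSpan_add h ha'
  obtain ⟨ν, hν⟩ := pairSpan_mul h ha'
  simp only at hτ hν
  have ea' : a' = τ • (1 : Module.End K V) - a := by rw [← hτ]; abel
  have hν' : a' * a = ν • (1 : Module.End K V) := by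
    rw [← hν, ea', mul_sub, sub_mul, mul_smul_comm, smul_mul_assoc, mul_one, one_mul]
  -- pointwise forms
  have pτ : ∀ x, a' x = τ • x - a x := by
    intro x
    rw [ea']
    simp
  have pν : ∀ x, a' (a x) = ν • x := by
    intro x
    have := congrArg (fun f : Module.End K V => f x) hν'
    simpa using this
  -- `ν = 0`
  have hν0 : ν = 0 := by
    by_contra hne
    apply hinj
    intro x y hxy
    have h1 := pν x
    have h2 := pν y
    rw [hxy, h2] at h1
    exact smul_right_injective V hne h1.symm
  rw [hν0] at pν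
  simp only [zero_smul] at pν
  -- `a' ≠ 0`
  have ha'0 : a' ≠ 0 := by
    intro h0
    have e : a = τ • (1 : Module.End K V) := by
      rw [h0, add_zero] at hτ
      exact hτ
    have hτ0 : τ ≠ 0 := by
      rintro rfl
      rw [zero_smul] at e
      exact ha0 e
    apply hinj
    intro x y hxy
    rw [e] at hxy
    simp only [LinearMap.smul_apply, Module.End.one_apply] at hxy
    exact smul_right_injective V hτ0 hxy
  -- key1
  have key1 : ∀ u, a u = 0 → u ≠ 0 → ∀ w, ∃ c : K, a' w = c • u := by
    intro u hau hu w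
    obtain ⟨b, hb, rfl⟩ := exists_span_apply_eq hirr hu w
    obtain ⟨b', hb'⟩ := exists_pair_of_mem_span ρ ω hb
    obtain ⟨c₁, hc₁⟩ := pairSpan_cross h ha' hb'
    obtain ⟨τb, hτb⟩ := pairSpan_add h hb'
    simp only at hc₁ hτb
    have eb' : ∀ x, b' x = τb • x - b x := by
      intro x
      have : b' = τb • (1 : Module.End K V) - b := by rw [← hτb]; abel
      rw [this]
      simp
    have h1 := congrArg (fun f : Module.End K V => f u) hc₁
    simp only [LinearMap.add_apply, Module.End.mul_apply, LinearMap.smul_apply,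
      Module.End.one_apply] at h1
    rw [eb' u, pτ u, hau, sub_zero, map_sub, map_smul, hau, smul_zero, zero_sub, map_smul] at h1
    refine ⟨c₁, ?_⟩
    rw [pτ, ← h1]
    abel
  -- key2
  have key2 : ∀ u, a' u = 0 → u ≠ 0 → ∀ w, ∃ c : K, a w = c • u := by
    intro u hau hu w
    obtain ⟨b, hb, rfl⟩ := exists_span_apply_eq hirr hu w
    obtain ⟨b', hb'⟩ := exists_pair_of_mem_span ρ ω hb
    obtain ⟨c₁, hc₁⟩ := pairSpan_cross h ha' hb'
    obtain ⟨τb, hτb⟩ := pairSpan_add h hb'
    simp only at hc₁ hτb
    have eb' : ∀ x, b' x = τb • x - b x := by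
      intro x
      have : b' = τb • (1 : Module.End K V) - b := by rw [← hτb]; abel
      rw [this]
      simp
    have hau' : a u = τ • u := by
      have := pτ u
      rw [hau] at this
      exact (sub_eq_zero.mp this.symm).symm
    have h1 := congrArg (fun f : Module.End K V => f u) hc₁
    simp only [LinearMap.add_apply, Module.End.mul_apply, LinearMap.smul_apply,
      Module.End.one_apply] at h1
    rw [hau, map_zero, add_zero, eb' u, map_sub, map_smul, hau'] at h1
    refine ⟨τb * τ - c₁, ?_⟩
    rw [sub_smul, ← h1, mul_smul]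
    abel
  -- witnesses
  obtain ⟨u₀, hu₀a, hu₀⟩ : ∃ u, a u = 0 ∧ u ≠ 0 := by
    by_contra hcon
    push Not at hcon
    apply hinj
    rw [injective_iff_map_eq_zero]
    intro x hx
    exact hcon x hx
  obtain ⟨w₀, hw₀⟩ : ∃ w, a w ≠ 0 := by
    by_contra hcon
    push Not at hcon
    exact ha0 (LinearMap.ext hcon)
  obtain ⟨w₁, hw₁⟩ : ∃ w, a' w ≠ 0 := by
    by_contra hcon
    push Not at hcon
    exact ha'0 (LinearMap.ext hcon)
  -- range a ≤ span {a w₀}
  have hrange : LinearMap.range a ≤ Submodule.span K {a w₀} := by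
    rintro _ ⟨w, rfl⟩
    obtain ⟨c, hc⟩ := key2 (a w₀) (pν w₀) hw₀ w
    rw [hc]
    exact Submodule.smul_mem _ c (Submodule.mem_span_singleton_self _)
  have hker : LinearMap.ker a ≤ Submodule.span K {a' w₁} := by
    intro u hu
    rw [LinearMap.mem_ker] at hu
    by_cases hu0 : u = 0
    · rw [hu0]; exact Submodule.zero_mem _
    obtain ⟨c, hc⟩ := key1 u hu hu0 w₁
    have hc0 : c ≠ 0 := by
      rintro rfl
      rw [zero_smul] at hc
      exact hw₁ hc
    have : u = c⁻¹ • a' w₁ := by rw [hc, smul_smul, inv_mul_cancel₀ hc0, one_smul]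
    rw [this]
    exact Submodule.smul_mem _ _ (Submodule.mem_span_singleton_self _)
  have h1 : Module.finrank K (LinearMap.range a) ≤ 1 :=
    (Submodule.finrank_mono hrange).trans (by rw [finrank_span_singleton hw₀])
  have h2 : Module.finrank K (LinearMap.ker a) ≤ 1 :=
    (Submodule.finrank_mono hker).trans (by rw [finrank_span_singleton hw₁])
  have := LinearMap.finrank_range_add_finrank_ker a
  omega

end Fermat.Agent.QuadRep
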